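/-
helper34: the relative fundamental identity `∑_{w ∣ v} e(w) deg w = [F' : F] deg v` for a finite
extension `F'/F` of function fields of one variable over an algebraically closed field of
characteristic zero (P-ES, ES-C1-REL-FI).  Everything lives in namespace `Fermat.Agent.H34`.
-/
import Fermat.Agent.H29.ResidueConst
import Fermat.Agent.H29.PlaceDedekind
import Fermat.Prelude.Def_AlgebraicCurve_DivisorPushPull

set_option autoImplicit false
set_option linter.deprecated false

noncomputable section

open AlgebraicCurve IntermediateField Polynomial IsDedekindDomain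
open scoped IntermediateField.algebraAdjoinAdjoin

namespace Fermat.Agent.H34

section relFI

variable {K F F' : Type*} [Field K] [Field F] [Field F'] [Algebra K F] [Algebra K F']
  [Algebra F F'] [IsScalarTower K F F']

/-- If `F` is algebraic over `K(x)` with `x` transcendental and `F'/F` is algebraic, then `F'` is
algebraic over `K(x)` (with `x` viewed in `F'`). -/
theorem isAlgebraic_adjoin_algebraMap {x : F} (hx : Transcendental K x)
    [Algebra.IsAlgebraic K⟮x⟯ F] [Algebra.IsAlgebraic F F'] :
    Algebra.IsAlgebraic K⟮algebraMap F F' x⟯ F' := by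
  have h1 : Algebra.IsAlgebraic (Algebra.adjoin K {x}) F :=
    Algebra.IsAlgebraic.trans (Algebra.adjoin K {x}) K⟮x⟯ F
  let xx : Unit → F := fun _ => x
  have hxx : AlgebraicIndependent K xx := algebraicIndependent_unique_type_iff.mpr hx
  have hr : Set.range xx = {x} := by
    ext a; simp [xx, eq_comm]
  have hb : IsTranscendenceBasis K xx :=
    hxx.isTranscendenceBasis_iff_isAlgebraic.mpr (by rw [hr]; exact h1)
  have hb' : IsTranscendenceBasis K (algebraMap F F' ∘ xx) := hb.algebraMap_comp
  have h4 := hb'.isAlgebraic_field
  have h5 : Set.range (algebraMap F F' ∘ xx) = {algebraMap F F' x} := by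
    ext a; simp [xx, eq_comm]
  rw [h5] at h4
  exact h4

/-- The sum of the ramification indices over the fibre of a place is the degree of the
extension. -/
theorem sum_ramificationIndex_fiber [IsAlgClosed K] [CharZero K] [Module.Finite F F']
    [HasPrincipalDivisors K F'] (t : F) (ht : Transcendental K t) [FiniteDimensional K⟮t⟯ F]
    (v : Place K F) :
    ∑ w ∈ v.fiber F', (w.ramificationIndex F : ℤ) = (Module.finrank F F' : ℤ) := by
  classical
  have halgF : Algebra.IsAlgebraic K⟮t⟯ F := inferInstance
  have halgF' : Algebra.IsAlgebraic K⟮algebraMap F F' t⟯ F' :=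
    isAlgebraic_adjoin_algebraMap (K := K) (F := F) (F' := F') ht
  have hcharF : CharZero F := charZero_of_injective_algebraMap (algebraMap K F).injective
  have hsep : Algebra.IsSeparable F F' := inferInstance
  let R := v.toValuationSubring
  let S := integralClosure R F'
  have hDS : IsDedekindDomain S := integralClosure.isDedekindDomain R F F'
  have hFS : IsFractionRing S F' := integralClosure.isFractionRing_of_finite_extension F F'
  have hfin : Module.Finite R S := IsIntegralClosure.finite R F F' S
  have hKRF' : IsScalarTower K R F' := IsScalarTower.of_algebraMap_eq (fun c => by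
    rw [IsScalarTower.algebraMap_apply K F F']
    rfl)
  have hKSF' : IsScalarTower K S F' := IsScalarTower.of_algebraMap_eq (fun c => rfl)
  let p : Ideal R := IsLocalRing.maximalIdeal R
  have hpmax : p.IsMaximal := IsLocalRing.maximalIdeal.isMaximal R
  have hp0 : p ≠ ⊥ := IsDiscreteValuationRing.not_a_field R
  have H := Ideal.sum_ramification_inertia S F F' hp0
  obtain ⟨π, hπ⟩ := IsDiscreteValuationRing.exists_irreducible R
  have hpspan : p = Ideal.span {π} := hπ.maximalIdeal_eq
  have hπord : v.ord (π : F) = 1 := v.ord_coe_irreducible hπ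
  have hπ0 : (π : F) ≠ 0 := by
    intro h
    rw [h, Place.ord_zero] at hπord
    exact zero_ne_one hπord
  let πS : S := algebraMap R S π
  have hπS : algebraMap S F' πS = algebraMap F F' (π : F) := rfl
  have hπS0 : πS ≠ 0 := by
    intro h
    have h1 : algebraMap F F' (π : F) = 0 := by rw [← hπS, h, map_zero]
    exact hπ0 ((map_eq_zero _).mp h1)
  have hmap : Ideal.map (algebraMap R S) p = Ideal.span {πS} := by
    rw [hpspan, Ideal.map_span, Set.image_singleton]
  have hmap0 : Ideal.map (algebraMap R S) p ≠ ⊥ := by
    rw [hmap]
    simpa [Ideal.span_singleton_eq_bot] using hπS0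
  set T := IsDedekindDomain.primesOverFinset p S with hT
  have hTmem : ∀ P : Ideal S, P ∈ T ↔ P.IsPrime ∧ P.LiesOver p := fun P =>
    IsDedekindDomain.mem_primesOverFinset_iff hp0 S
  have hTne : ∀ P : Ideal S, P ∈ T → P ≠ ⊥ := by
    intro P hP
    have := ((hTmem P).mp hP).2
    exact Ideal.ne_bot_of_liesOver_of_ne_bot hp0 P
  let φ : {P // P ∈ T} → Place K F' := fun x =>
    Place.ofHeightOneSpectrum (K := K) (F := F') (R := S)
      ⟨x.1, ((hTmem x.1).mp x.2).1, hTne x.1 x.2⟩
  have hφinj : Function.Injective φ := by
    intro x x' h
    have h1 := Fermat.Agent.H29.ofHeightOneSpectrum_injective (K := K) (F := F') (R := S) h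
    apply Subtype.ext
    exact congrArg HeightOneSpectrum.asIdeal h1
  -- the image of `φ` lies in the fibre
  have hφfib : ∀ x : {P // P ∈ T}, (φ x).restrict F = v := by
    intro x
    symm
    apply Place.ext
    apply ValuationSubring.eq_of_le_of_ne_top v.toValuationSubring _ ((φ x).restrict F).ne_top'
    intro r hr
    show (HeightOneSpectrum.valuation F' _) (algebraMap F F' r) ≤ 1
    exact HeightOneSpectrum.valuation_le_one _ (algebraMap R S ⟨r, hr⟩)
  -- ramification index
  have hord : ∀ x : {P // P ∈ T},
      ((φ x).ramificationIndex F : ℤ) = (Ideal.ramificationIdx' p x.1 : ℤ) := by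
    intro x
    have hxprime := ((hTmem x.1).mp x.2).1
    have h1 : (φ x).ord (algebraMap F F' (π : F)) = ((φ x).ramificationIndex F : ℤ) := by
      rw [(φ x).ord_restrict (π : F), hφfib x, hπord, mul_one]
    rw [← h1, Ideal.IsDedekindDomain.ramificationIdx'_eq_multiplicity hmap0 hxprime, hmap]
    show (Place.ofHeightOneSpectrum (K := K) (F := F') (R := S) _).ord _ = _
    have hval : (HeightOneSpectrum.valuation F'
        (⟨x.1, hxprime, hTne x.1 x.2⟩ : HeightOneSpectrum S)) (algebraMap F F' (π : F))
          = (⟨x.1, hxprime, hTne x.1 x.2⟩ : HeightOneSpectrum S).intValuation πS :=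
      HeightOneSpectrum.valuation_of_algebraMap _ πS
    rw [Fermat.Agent.H29.ord_ofHeightOneSpectrum, hval,
      HeightOneSpectrum.intValuation_eq_exp_neg_multiplicity _ hπS0]
    simp
  -- inertia degree
  have hinert : ∀ x : {P // P ∈ T}, Ideal.inertiaDeg' p x.1 = 1 := by
    intro x
    have hxprime := ((hTmem x.1).mp x.2).1
    have hxover := ((hTmem x.1).mp x.2).2
    have hxmax : x.1.IsMaximal := hxprime.isMaximal (hTne x.1 x.2)
    rw [Ideal.inertiaDeg'_algebraMap]
    let _ := Ideal.Quotient.field p
    have hnt : (1 : S ⧸ x.1) ≠ 0 := by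
      have := Ideal.Quotient.nontrivial_iff.mpr hxprime.ne_top
      exact one_ne_zero
    rw [finrank_eq_one_iff_of_nonzero' (1 : S ⧸ x.1) hnt]
    intro z
    obtain ⟨b, rfl⟩ := Ideal.Quotient.mk_surjective z
    have hbmem : algebraMap S F' b ∈ (φ x).toValuationSubring := by
      show (HeightOneSpectrum.valuation F' _) _ ≤ 1
      exact HeightOneSpectrum.valuation_le_one _ b
    obtain ⟨c, hc⟩ := Fermat.Agent.H29.place_exists_const_sub (y := algebraMap F F' t)
      (φ x) hbmem
    have hsub : b - algebraMap K S c ∈ x.1 := by
      have := (Fermat.Agent.H29.ord_ofHeightOneSpectrum_pos_iff (K := K) (F := F') (R := S)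
        ⟨x.1, hxprime, hTne x.1 x.2⟩ (b - algebraMap K S c)).mp
      apply this
      rcases hc with hc | hc
      · left
        apply IsFractionRing.injective S F'
        rw [map_sub, map_zero, sub_eq_zero, hc]
        rfl
      · right
        rw [map_sub]
        exact hc
    refine ⟨Ideal.Quotient.mk p (algebraMap K R c), ?_⟩
    rw [Algebra.smul_def, mul_one]
    have h1 : algebraMap (R ⧸ p) (S ⧸ x.1) (Ideal.Quotient.mk p (algebraMap K R c))
        = Ideal.Quotient.mk x.1 (algebraMap R S (algebraMap K R c)) := rfl
    have hcc : algebraMap R S (algebraMap K R c) = algebraMap K S c := by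
      apply Subtype.ext
      show algebraMap F F' (algebraMap K F c) = algebraMap K F' c
      rw [← IsScalarTower.algebraMap_apply]
    rw [h1, hcc]
    symm
    rw [Ideal.Quotient.eq]
    exact hsub
  -- the fibre is the image of `φ`
  have hfiber : v.fiber F' = (Finset.univ : Finset {P // P ∈ T}).image φ := by
    ext w
    simp only [Place.mem_fiber, Finset.mem_image, Finset.mem_univ, true_and]
    constructor
    · intro hw
      have hew : 0 < w.ramificationIndex F := w.ramificationIndex_pos (F := F)
      have hRw : ∀ r : R, algebraMap F F' (r : F) ∈ w.toValuationSubring := by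
        intro r
        have hr : (r : F) ∈ (w.restrict F).toValuationSubring := by
          rw [hw]
          exact r.2
        exact hr
      have hSw : ∀ b : S, algebraMap S F' b ∈ w.toValuationSubring := by
        intro b
        let ψ : R →+* w.toValuationSubring :=
          (algebraMap R F').codRestrict w.toValuationSubring.toSubring hRw
        let _ : Algebra R w.toValuationSubring := ψ.toAlgebra
        have : IsScalarTower R w.toValuationSubring F' :=
          IsScalarTower.of_algebraMap_eq (fun a => rfl)
        have hb : IsIntegral R (algebraMap S F' b) := b.2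
        have hb' : IsIntegral w.toValuationSubring (algebraMap S F' b) := hb.tower_top
        obtain ⟨a, ha⟩ := IsIntegrallyClosed.isIntegral_iff.mp hb'
        rw [← ha]
        exact a.2
      have hπw : 0 < w.ord (algebraMap S F' πS) := by
        rw [hπS, w.ord_restrict (π : F), hw, hπord, mul_one]
        exact_mod_cast hew
      obtain ⟨P, hP⟩ := Fermat.Agent.H29.exists_heightOneSpectrum_of_le (K := K) (F := F')
        (R := S) w hSw ⟨πS, hπS0, hπw⟩
      have hπP : πS ∈ P.asIdeal := by
        apply (Fermat.Agent.H29.ord_ofHeightOneSpectrum_pos_iff (K := K) (F := F') (R := S)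
          P πS).mp
        right
        rw [hP]
        exact hπw
      have hPT : P.asIdeal ∈ T := by
        rw [hTmem]
        refine ⟨P.isPrime, ⟨?_⟩⟩
        apply hpmax.eq_of_le
        · intro htop
          have h1 : (1 : R) ∈ Ideal.under R P.asIdeal := by rw [htop]; trivial
          have h2 : (1 : S) ∈ P.asIdeal := by simpa [Ideal.under] using h1
          exact P.isPrime.ne_top ((Ideal.eq_top_iff_one _).mpr h2)
        · rw [hpspan, Ideal.span_le]
          intro a ha
          rw [Set.mem_singleton_iff] at ha
          subst ha
          exact hπP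
      refine ⟨⟨P.asIdeal, hPT⟩, ?_⟩
      rw [← hP]
    · rintro ⟨x, rfl⟩
      exact hφfib x
  rw [hfiber, Finset.sum_image (fun a _ b _ h => hφinj h)]
  simp_rw [hord]
  rw [← H, Finset.sum_coe_sort T (fun P => (Ideal.ramificationIdx' p P : ℤ))]
  push_cast
  refine Finset.sum_congr rfl (fun P hP => ?_)
  rw [hinert ⟨P, hP⟩]
  simp

/-- **ES-C1-REL-FI** (generic, universe polymorphic): the relative fundamental identity for a
finite extension of function fields of one variable over an algebraically closed field of
characteristic zero. -/
theorem fundamentalIdentity_of_transcendental [IsAlgClosed K] [CharZero K] [Module.Finite F F']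
    [HasPrincipalDivisors K F'] (x : F) (hx : Transcendental K x) [FiniteDimensional K⟮x⟯ F] :
    FundamentalIdentity K F F' where
  sum_ramificationIndex_mul_deg v := by
    have halgF : Algebra.IsAlgebraic K⟮x⟯ F := inferInstance
    have halgF' : Algebra.IsAlgebraic K⟮algebraMap F F' x⟯ F' :=
      isAlgebraic_adjoin_algebraMap (K := K) (F := F) (F' := F') hx
    have hv : v.deg = 1 := Fermat.Agent.H29.place_deg_eq_one (y := x) v
    have hw : ∀ w : Place K F', w.deg = 1 := fun w =>
      Fermat.Agent.H29.place_deg_eq_one (y := algebraMap F F' x) w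
    simp_rw [hw, hv]
    simpa using sum_ramificationIndex_fiber x hx v

end relFI

end Fermat.Agent.H34
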