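/-
helper34: ES-C1-REL-FI (P-ES), the relative fundamental identity in the form of the interface
`Fermat.Agent.H21.EsC.RelFundamentalIdentityStatement`.
-/
import Fermat.Agent.H21.EsC.Interfaces
import Fermat.Agent.H34.EsC.RelFICore

set_option autoImplicit false

noncomputable section

open AlgebraicCurve IntermediateField

namespace Fermat.Agent.H34

/-- **ES-C1-REL-FI**: the relative fundamental identity `∑_{w ∣ v} e(w) deg w = [F':F] deg v`. -/
theorem relFundamentalIdentity : Fermat.Agent.H21.EsC.RelFundamentalIdentityStatement := by
  intro K F F' _ _ _ _ _ _ _ _ _ _ _ h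
  obtain ⟨x, hx, hfin⟩ := h
  haveI := hfin
  exact fundamentalIdentity_of_transcendental x hx

end Fermat.Agent.H34

end
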